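import Mathlib.Analysis.Complex.UpperHalfPlane.Manifold
import Mathlib.Analysis.Analytic.Order
import Mathlib.Analysis.Analytic.Uniqueness
import Mathlib.Analysis.Complex.CauchyIntegral
import Mathlib.RingTheory.Valuation.ExtendToLocalization
import Mathlib.RingTheory.Localization.FractionRing
import Mathlib.NumberTheory.ModularForms.Basic
import Mathlib.RingTheory.RootsOfUnity.PrimitiveRoots
import Mathlib.Algebra.Polynomial.RingDivision
import Mathlib.Algebra.Polynomial.AlgebraMap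
import Mathlib.Analysis.Complex.Polynomial.Basic

set_option autoImplicit false

open UpperHalfPlane Complex Filter Topology
open scoped MatrixGroups Manifold WithZero

noncomputable section

namespace Fermat.Agent.S24_helper82

/-- Holomorphic functions on the upper half plane, as a `ℂ`-subalgebra of all functions. -/
def Hol : Subalgebra ℂ (ℍ → ℂ) where
  carrier := {f | MDifferentiable 𝓘(ℂ) 𝓘(ℂ) f}
  mul_mem' := fun {_ _} hf hg => hf.mul hg
  one_mem' := mdifferentiable_const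
  add_mem' := fun {_ _} hf hg => hf.add hg
  zero_mem' := mdifferentiable_const
  algebraMap_mem' := fun _ => mdifferentiable_const

theorem mem_Hol_iff {f : ℍ → ℂ} : f ∈ Hol ↔ MDifferentiable 𝓘(ℂ) 𝓘(ℂ) f := Iff.rfl

/-- The upper half plane as an open subset of `ℂ`. -/
def uhpSet : Set ℂ := {z | 0 < z.im}

theorem isOpen_uhpSet : IsOpen uhpSet := isOpen_lt continuous_const Complex.continuous_im

theorem isPreconnected_uhpSet : IsPreconnected uhpSet :=
  (convex_halfSpace_im_gt 0).isPreconnected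

theorem coe_mem_uhpSet (τ : ℍ) : (τ : ℂ) ∈ uhpSet := τ.im_pos

theorem analyticOnNhd_of_mem_Hol {f : ℍ → ℂ} (hf : f ∈ Hol) :
    AnalyticOnNhd ℂ (f ∘ ofComplex) uhpSet :=
  (UpperHalfPlane.mdifferentiable_iff.mp hf).analyticOnNhd isOpen_uhpSet

theorem analyticAt_of_mem_Hol {f : ℍ → ℂ} (hf : f ∈ Hol) (τ : ℍ) :
    AnalyticAt ℂ (f ∘ ofComplex) (τ : ℂ) :=
  analyticOnNhd_of_mem_Hol hf _ (coe_mem_uhpSet τ)

/-- Order of vanishing at `τ` of a function on the upper half plane. -/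
def ordAt (τ : ℍ) (f : ℍ → ℂ) : ℕ∞ := analyticOrderAt (f ∘ ofComplex) (τ : ℂ)

theorem ordAt_mul {f g : ℍ → ℂ} (hf : f ∈ Hol) (hg : g ∈ Hol) (τ : ℍ) :
    ordAt τ (f * g) = ordAt τ f + ordAt τ g :=
  analyticOrderAt_mul (analyticAt_of_mem_Hol hf τ) (analyticAt_of_mem_Hol hg τ)

theorem le_ordAt_add (f g : ℍ → ℂ) (τ : ℍ) :
    min (ordAt τ f) (ordAt τ g) ≤ ordAt τ (f + g) :=
  le_analyticOrderAt_add

theorem ordAt_eq_top_iff {f : ℍ → ℂ} (hf : f ∈ Hol) (τ : ℍ) :
    ordAt τ f = ⊤ ↔ f = 0 := by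
  constructor
  · intro h
    have h0 : (f ∘ ofComplex) =ᶠ[𝓝 (τ : ℂ)] 0 := analyticOrderAt_eq_top.mp h
    have hEq := (analyticOnNhd_of_mem_Hol hf).eqOn_zero_of_preconnected_of_eventuallyEq_zero
      isPreconnected_uhpSet (coe_mem_uhpSet τ) h0
    funext z
    have := hEq (coe_mem_uhpSet z)
    simpa [ofComplex_apply] using this
  · rintro rfl
    exact analyticOrderAt_eq_top.mpr (Eventually.of_forall fun _ => rfl)

theorem ordAt_eq_zero_iff {f : ℍ → ℂ} (hf : f ∈ Hol) (τ : ℍ) :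
    ordAt τ f = 0 ↔ f τ ≠ 0 := by
  rw [ordAt, (analyticAt_of_mem_Hol hf τ).analyticOrderAt_eq_zero]
  simp [ofComplex_apply]

theorem ordAt_const {c : ℂ} (hc : c ≠ 0) (τ : ℍ) : ordAt τ (fun _ => c) = 0 := by
  rw [ordAt_eq_zero_iff (f := fun _ => c) (Hol.algebraMap_mem c)]
  exact hc


theorem coe_eq_zero_iff (f : Hol) : (f : ℍ → ℂ) = 0 ↔ f = 0 := by
  constructor
  · intro h; exact Subtype.ext h
  · rintro rfl; rfl

theorem ordAt_ne_top {f : Hol} (hf : f ≠ 0) (τ : ℍ) : ordAt τ (f : ℍ → ℂ) ≠ ⊤ := by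
  intro h
  exact hf ((coe_eq_zero_iff f).mp ((ordAt_eq_top_iff f.2 τ).mp h))

instance : IsDomain Hol := by
  have : Nontrivial Hol := ⟨⟨0, 1, fun h => by
    have := congrArg (fun f : Hol => (f : ℍ → ℂ) UpperHalfPlane.I) h
    simp at this⟩⟩
  have : NoZeroDivisors Hol := ⟨by
    intro f g hfg
    by_contra hne
    push Not at hne
    have h1 : ordAt UpperHalfPlane.I ((f * g : Hol) : ℍ → ℂ) = ⊤ := by
      rw [hfg]
      exact (ordAt_eq_top_iff (Hol.zero_mem) _).mpr rfl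
    have h2 : ordAt UpperHalfPlane.I ((f * g : Hol) : ℍ → ℂ)
        = ordAt UpperHalfPlane.I (f : ℍ → ℂ) + ordAt UpperHalfPlane.I (g : ℍ → ℂ) :=
      ordAt_mul f.2 g.2 _
    rw [h2] at h1
    rcases WithTop.add_eq_top.mp h1 with h | h
    · exact ordAt_ne_top hne.1 _ h
    · exact ordAt_ne_top hne.2 _ h⟩
  exact NoZeroDivisors.to_isDomain Hol

/-- Natural-number order of vanishing (0 for the zero function). -/
def ordNat (τ : ℍ) (f : Hol) : ℕ := (ordAt τ (f : ℍ → ℂ)).toNat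

theorem coe_ordNat {f : Hol} (hf : f ≠ 0) (τ : ℍ) :
    (ordNat τ f : ℕ∞) = ordAt τ (f : ℍ → ℂ) :=
  ENat.natCast_toNat (ordAt_ne_top hf τ)

theorem ordNat_mul {f g : Hol} (hf : f ≠ 0) (hg : g ≠ 0) (τ : ℍ) :
    ordNat τ (f * g) = ordNat τ f + ordNat τ g := by
  have h := ordAt_mul f.2 g.2 τ
  have : (ordNat τ (f * g) : ℕ∞) = ((ordNat τ f + ordNat τ g : ℕ) : ℕ∞) := by
    rw [coe_ordNat (mul_ne_zero hf hg)]
    push_cast
    rw [coe_ordNat hf, coe_ordNat hg]
    exact h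
  exact_mod_cast this

theorem ordNat_one (τ : ℍ) : ordNat τ (1 : Hol) = 0 := by
  have : ordAt τ (1 : ℍ → ℂ) = 0 :=
    (ordAt_eq_zero_iff (Hol.one_mem) τ).mpr (by simp)
  show (ordAt τ (1 : ℍ → ℂ)).toNat = 0
  rw [this]; rfl

theorem min_ordNat_le_add {f g : Hol} (hf : f ≠ 0) (hg : g ≠ 0) (hfg : f + g ≠ 0) (τ : ℍ) :
    min (ordNat τ f) (ordNat τ g) ≤ ordNat τ (f + g) := by
  have h := le_ordAt_add (f : ℍ → ℂ) (g : ℍ → ℂ) τ
  have h' : min (ordNat τ f : ℕ∞) (ordNat τ g : ℕ∞) ≤ (ordNat τ (f + g) : ℕ∞) := by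
    rw [coe_ordNat hf, coe_ordNat hg, coe_ordNat hfg]
    exact h
  rcases le_total (ordNat τ f) (ordNat τ g) with hle | hle
  · rw [min_eq_left hle]
    rw [min_eq_left (by exact_mod_cast hle)] at h'
    exact_mod_cast h'
  · rw [min_eq_right hle]
    rw [min_eq_right (by exact_mod_cast hle)] at h'
    exact_mod_cast h'

theorem ordNat_eq_zero_iff {f : Hol} (hf : f ≠ 0) (τ : ℍ) :
    ordNat τ f = 0 ↔ (f : ℍ → ℂ) τ ≠ 0 := by
  rw [← ordAt_eq_zero_iff f.2 τ, ← coe_ordNat hf τ]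
  simp


open scoped Classical in
/-- The `τ`-adic valuation on the ring of holomorphic functions. -/
def holVal (τ : ℍ) : Valuation Hol ℤᵐ⁰ where
  toFun f := if f = 0 then 0 else WithZero.exp (-(ordNat τ f : ℤ))
  map_zero' := by simp
  map_one' := by simp [ordNat_one]
  map_mul' f g := by
    by_cases hf : f = 0
    · simp [hf]
    by_cases hg : g = 0
    · simp [hg]
    have hfg : f * g ≠ 0 := mul_ne_zero hf hg
    simp only [hf, hg, hfg, if_false]
    rw [ordNat_mul hf hg, ← WithZero.exp_add]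
    congr 1
    push_cast
    ring
  map_add_le_max' f g := by
    by_cases hf : f = 0
    · simp [hf]
    by_cases hg : g = 0
    · simp [hg]
    by_cases hfg : f + g = 0
    · simp [hfg]
    simp only [hf, hg, hfg, if_false]
    have h := min_ordNat_le_add hf hg hfg τ
    rcases le_total (ordNat τ f) (ordNat τ g) with hle | hle
    · rw [min_eq_left hle] at h
      apply le_max_of_le_left
      rw [WithZero.exp_le_exp]
      omega
    · rw [min_eq_right hle] at h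
      apply le_max_of_le_right
      rw [WithZero.exp_le_exp]
      omega

open scoped Classical in
theorem holVal_apply {f : Hol} (hf : f ≠ 0) (τ : ℍ) :
    holVal τ f = WithZero.exp (-(ordNat τ f : ℤ)) := by
  show (if f = 0 then 0 else WithZero.exp (-(ordNat τ f : ℤ))) = _
  rw [if_neg hf]

theorem holVal_eq_zero_iff (τ : ℍ) (f : Hol) : holVal τ f = 0 ↔ f = 0 := by
  constructor
  · intro h
    by_contra hf
    rw [holVal_apply hf] at h
    exact WithZero.exp_ne_zero h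
  · rintro rfl
    exact map_zero _

theorem holVal_supp (τ : ℍ) : (holVal τ).supp = ⊥ := by
  ext f
  rw [Valuation.mem_supp_iff, holVal_eq_zero_iff]
  simp

/-- The field of meromorphic functions on the upper half plane. -/
abbrev Mer : Type := FractionRing Hol

theorem nonZeroDivisors_le_primeCompl (τ : ℍ) :
    nonZeroDivisors Hol ≤ (holVal τ).supp.primeCompl := by
  intro f hf
  show f ∉ (holVal τ).supp
  rw [Valuation.mem_supp_iff, holVal_eq_zero_iff]
  exact nonZeroDivisors.ne_zero hf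

/-- The `τ`-adic valuation on the field of meromorphic functions. -/
def merVal (τ : ℍ) : Valuation Mer ℤᵐ⁰ :=
  (holVal τ).extendToLocalization (nonZeroDivisors_le_primeCompl τ) Mer

theorem merVal_algebraMap (τ : ℍ) (f : Hol) : merVal τ (algebraMap Hol Mer f) = holVal τ f :=
  Valuation.extendToLocalization_apply_map_apply (holVal τ) (nonZeroDivisors_le_primeCompl τ) Mer f

/-- The order at `τ` of a meromorphic function (`0` for the zero function). -/
def ordM (τ : ℍ) (m : Mer) : ℤ := -(WithZero.log (merVal τ m))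

theorem merVal_ne_zero (τ : ℍ) {m : Mer} (hm : m ≠ 0) : merVal τ m ≠ 0 :=
  (Valuation.ne_zero_iff _).mpr hm

@[simp] theorem ordM_zero (τ : ℍ) : ordM τ 0 = 0 := by simp [ordM]

@[simp] theorem ordM_one (τ : ℍ) : ordM τ 1 = 0 := by simp [ordM]

theorem ordM_mul (τ : ℍ) {m n : Mer} (hm : m ≠ 0) (hn : n ≠ 0) :
    ordM τ (m * n) = ordM τ m + ordM τ n := by
  simp only [ordM, map_mul]
  rw [WithZero.log_mul (merVal_ne_zero τ hm) (merVal_ne_zero τ hn)]
  ring

theorem ordM_inv (τ : ℍ) (m : Mer) : ordM τ m⁻¹ = -ordM τ m := by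
  simp only [ordM, map_inv₀, WithZero.log_inv]

theorem ordM_div (τ : ℍ) {m n : Mer} (hm : m ≠ 0) (hn : n ≠ 0) :
    ordM τ (m / n) = ordM τ m - ordM τ n := by
  rw [div_eq_mul_inv, ordM_mul τ hm (inv_ne_zero hn), ordM_inv]
  ring

theorem ordM_pow (τ : ℍ) (m : Mer) (n : ℕ) : ordM τ (m ^ n) = n * ordM τ m := by
  simp only [ordM, map_pow, WithZero.log_pow, nsmul_eq_mul]
  ring

theorem ordM_algebraMap (τ : ℍ) {f : Hol} (hf : f ≠ 0) :
    ordM τ (algebraMap Hol Mer f) = ordNat τ f := by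
  rw [ordM, merVal_algebraMap, holVal_apply hf, WithZero.log_exp]
  ring

theorem min_ordM_le_add (τ : ℍ) {m n : Mer} (hm : m ≠ 0) (hn : n ≠ 0) (hmn : m + n ≠ 0) :
    min (ordM τ m) (ordM τ n) ≤ ordM τ (m + n) := by
  have h := (merVal τ).map_add_le_max' m n
  have e1 := WithZero.exp_log (merVal_ne_zero τ hm)
  have e2 := WithZero.exp_log (merVal_ne_zero τ hn)
  have e3 := WithZero.exp_log (merVal_ne_zero τ hmn)
  simp only [ordM]
  rcases le_total (merVal τ m) (merVal τ n) with hle | hle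
  · have h' : merVal τ (m + n) ≤ merVal τ n := le_trans h (max_le hle le_rfl)
    rw [← e3, ← e2, WithZero.exp_le_exp] at h'
    have := min_le_right (-(WithZero.log (merVal τ m))) (-(WithZero.log (merVal τ n)))
    omega
  · have h' : merVal τ (m + n) ≤ merVal τ m := le_trans h (max_le le_rfl hle)
    rw [← e3, ← e1, WithZero.exp_le_exp] at h'
    have := min_le_left (-(WithZero.log (merVal τ m))) (-(WithZero.log (merVal τ n)))
    omega

theorem ordM_const (τ : ℍ) {c : ℂ} (hc : c ≠ 0) : ordM τ (algebraMap ℂ Mer c) = 0 := by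
  have hc' : algebraMap ℂ Hol c ≠ 0 := by
    intro h
    have := congrArg (fun f : Hol => (f : ℍ → ℂ) UpperHalfPlane.I) h
    exact hc (by simpa using this)
  rw [IsScalarTower.algebraMap_apply ℂ Hol Mer, ordM_algebraMap τ hc']
  have : ordNat τ (algebraMap ℂ Hol c) = 0 := by
    rw [ordNat_eq_zero_iff hc']
    exact hc
  exact_mod_cast this


/-! ### Leading coefficients -/

theorem exists_factor {f : Hol} (hf : f ≠ 0) (τ : ℍ) :
    ∃ g : ℂ → ℂ, AnalyticAt ℂ g (τ : ℂ) ∧ g τ ≠ 0 ∧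
      ∀ᶠ z in 𝓝 (τ : ℂ), ((f : ℍ → ℂ) ∘ ofComplex) z = (z - τ) ^ (ordNat τ f) * g z := by
  have h := (analyticAt_of_mem_Hol f.2 τ).analyticOrderAt_eq_natCast (n := ordNat τ f)
  obtain ⟨g, hg, hg0, hgf⟩ := h.mp (coe_ordNat hf τ).symm
  exact ⟨g, hg, hg0, by simpa [smul_eq_mul] using hgf⟩

theorem factor_unique {g₁ g₂ : ℂ → ℂ} {z₀ : ℂ} {n : ℕ} (h1 : ContinuousAt g₁ z₀)
    (h2 : ContinuousAt g₂ z₀)
    (h : ∀ᶠ z in 𝓝 z₀, (z - z₀) ^ n * g₁ z = (z - z₀) ^ n * g₂ z) : g₁ z₀ = g₂ z₀ := by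
  have hne : ∀ᶠ z in 𝓝[≠] z₀, g₁ z = g₂ z := by
    have h' : ∀ᶠ z in 𝓝[≠] z₀, (z - z₀) ^ n * g₁ z = (z - z₀) ^ n * g₂ z :=
      eventually_nhdsWithin_of_eventually_nhds h
    filter_upwards [h', self_mem_nhdsWithin] with z hz hz0
    have : (z - z₀) ^ n ≠ 0 := pow_ne_zero _ (sub_ne_zero.mpr hz0)
    exact mul_left_cancel₀ this hz
  have t1 : Tendsto g₁ (𝓝[≠] z₀) (𝓝 (g₁ z₀)) := h1.tendsto.mono_left nhdsWithin_le_nhds
  have t2 : Tendsto g₂ (𝓝[≠] z₀) (𝓝 (g₂ z₀)) := h2.tendsto.mono_left nhdsWithin_le_nhds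
  exact tendsto_nhds_unique (t1.congr' hne) t2

open scoped Classical in
/-- Leading Taylor coefficient of `f` at `τ` (`0` for the zero function). -/
def lcAt (τ : ℍ) (f : Hol) : ℂ := if hf : f = 0 then 0 else (exists_factor hf τ).choose τ

theorem lcAt_eq {f : Hol} (hf : f ≠ 0) (τ : ℍ) {g : ℂ → ℂ} (hg : ContinuousAt g (τ : ℂ))
    (h : ∀ᶠ z in 𝓝 (τ : ℂ), ((f : ℍ → ℂ) ∘ ofComplex) z = (z - τ) ^ (ordNat τ f) * g z) :
    lcAt τ f = g τ := by
  rw [lcAt, dif_neg hf]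
  obtain ⟨h1, _, h3⟩ := (exists_factor hf τ).choose_spec
  refine factor_unique (n := ordNat τ f) h1.continuousAt hg ?_
  filter_upwards [h3, h] with z hz1 hz2
  rw [← hz1, ← hz2]

theorem lcAt_ne_zero {f : Hol} (hf : f ≠ 0) (τ : ℍ) : lcAt τ f ≠ 0 := by
  rw [lcAt, dif_neg hf]
  exact (exists_factor hf τ).choose_spec.2.1

theorem exists_factor' {f : Hol} (hf : f ≠ 0) (τ : ℍ) :
    ∃ g : ℂ → ℂ, AnalyticAt ℂ g (τ : ℂ) ∧ g τ = lcAt τ f ∧
      ∀ᶠ z in 𝓝 (τ : ℂ), ((f : ℍ → ℂ) ∘ ofComplex) z = (z - τ) ^ (ordNat τ f) * g z := by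
  obtain ⟨g, hg, _, hgf⟩ := exists_factor hf τ
  exact ⟨g, hg, (lcAt_eq hf τ hg.continuousAt hgf).symm, hgf⟩

theorem lcAt_mul {f g : Hol} (hf : f ≠ 0) (hg : g ≠ 0) (τ : ℍ) :
    lcAt τ (f * g) = lcAt τ f * lcAt τ g := by
  obtain ⟨u, hu, hu0, huf⟩ := exists_factor' hf τ
  obtain ⟨v, hv, hv0, hvg⟩ := exists_factor' hg τ
  rw [← hu0, ← hv0]
  refine lcAt_eq (mul_ne_zero hf hg) τ (g := fun z => u z * v z)
    (hu.continuousAt.mul hv.continuousAt) ?_
  filter_upwards [huf, hvg] with z h1 h2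
  rw [ordNat_mul hf hg]
  show (f : ℍ → ℂ) (ofComplex z) * (g : ℍ → ℂ) (ofComplex z) = _
  have h1' : (f : ℍ → ℂ) (ofComplex z) = (z - τ) ^ ordNat τ f * u z := h1
  have h2' : (g : ℍ → ℂ) (ofComplex z) = (z - τ) ^ ordNat τ g * v z := h2
  rw [h1', h2', pow_add]
  ring


/-! ### The action of `SL(2, ℤ)` -/

theorem mdifferentiable_comp_smul {f : ℍ → ℂ} (hf : f ∈ Hol) (g : SL(2, ℤ)) :
    (fun τ : ℍ => f (g • τ)) ∈ Hol := by
  have hdet : 0 < (Matrix.SpecialLinearGroup.mapGL ℝ g).det.val := by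
    rw [Matrix.SpecialLinearGroup.det_mapGL]; exact one_pos
  exact (show MDifferentiable 𝓘(ℂ) 𝓘(ℂ) f from hf).comp (mdifferentiable_smul hdet)

/-- Precomposition with the action of `g ∈ SL(2, ℤ)`, as an algebra endomorphism of `Hol`. -/
def compSL (g : SL(2, ℤ)) : Hol →ₐ[ℂ] Hol where
  toFun f := ⟨fun τ => (f : ℍ → ℂ) (g • τ), mdifferentiable_comp_smul f.2 g⟩
  map_one' := rfl
  map_mul' _ _ := rfl
  map_zero' := rfl
  map_add' _ _ := rfl
  commutes' _ := rfl

@[simp] theorem compSL_apply (g : SL(2, ℤ)) (f : Hol) (τ : ℍ) :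
    (compSL g f : ℍ → ℂ) τ = (f : ℍ → ℂ) (g • τ) := rfl

theorem compSL_one (f : Hol) : compSL 1 f = f := by
  ext τ; simp

theorem compSL_mul (g h : SL(2, ℤ)) (f : Hol) : compSL (g * h) f = compSL h (compSL g f) := by
  ext τ; simp [mul_smul]

theorem compSL_injective (g : SL(2, ℤ)) : Function.Injective (compSL g) := by
  intro f₁ f₂ h
  have := congrArg (compSL g⁻¹) h
  rwa [← compSL_mul, ← compSL_mul, mul_inv_cancel, compSL_one, compSL_one] at this

theorem compSL_ne_zero (g : SL(2, ℤ)) {f : Hol} (hf : f ≠ 0) : compSL g f ≠ 0 := fun h =>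
  hf (compSL_injective g (h.trans (map_zero _).symm))

/-- The Möbius map of `g`, as a function `ℂ → ℂ` (junk outside the upper half plane). -/
def moeb (g : SL(2, ℤ)) (z : ℂ) : ℂ := ((g • ofComplex z : ℍ) : ℂ)

theorem comp_ofComplex_compSL (g : SL(2, ℤ)) (f : Hol) :
    ((compSL g f : ℍ → ℂ) ∘ ofComplex) = ((f : ℍ → ℂ) ∘ ofComplex) ∘ moeb g := by
  funext z
  simp [moeb, ofComplex_apply]

theorem moeb_coe (g : SL(2, ℤ)) (τ : ℍ) : moeb g (τ : ℂ) = ((g • τ : ℍ) : ℂ) := by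
  simp [moeb, ofComplex_apply]

theorem analyticAt_moeb (g : SL(2, ℤ)) (τ : ℍ) : AnalyticAt ℂ (moeb g) (τ : ℂ) := by
  have hdet : 0 < (Matrix.SpecialLinearGroup.mapGL ℝ g).det.val := by
    rw [Matrix.SpecialLinearGroup.det_mapGL]; exact one_pos
  exact τ.analyticAt_smul hdet

theorem deriv_moeb_ne_zero (g : SL(2, ℤ)) (τ : ℍ) : deriv (moeb g) (τ : ℂ) ≠ 0 := by
  have hdet : 0 < (Matrix.SpecialLinearGroup.mapGL ℝ g).det.val := by
    rw [Matrix.SpecialLinearGroup.det_mapGL]; exact one_pos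
  exact τ.deriv_smul_ne_zero hdet

/-- Orders transform under the group action: `ord_τ (f ∘ g) = ord_{gτ} f`. -/
theorem ordAt_compSL (g : SL(2, ℤ)) (f : Hol) (τ : ℍ) :
    ordAt τ (compSL g f : ℍ → ℂ) = ordAt (g • τ) (f : ℍ → ℂ) := by
  rw [ordAt, comp_ofComplex_compSL,
    analyticOrderAt_comp_of_deriv_ne_zero (analyticAt_moeb g τ) (deriv_moeb_ne_zero g τ),
    moeb_coe]
  rfl

theorem ordNat_compSL (g : SL(2, ℤ)) (f : Hol) (τ : ℍ) :
    ordNat τ (compSL g f) = ordNat (g • τ) f := by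
  rw [ordNat, ordNat, ordAt_compSL]


/-! ### The action on meromorphic functions -/

theorem algebraMap_comp_compSL_injective (g : SL(2, ℤ)) :
    Function.Injective ((algebraMap Hol Mer).comp (compSL g).toRingHom) :=
  (IsFractionRing.injective Hol Mer).comp (compSL_injective g)

/-- Precomposition with `g ∈ SL(2, ℤ)` on meromorphic functions. -/
def compM (g : SL(2, ℤ)) : Mer →+* Mer :=
  IsFractionRing.lift (algebraMap_comp_compSL_injective g)

@[simp] theorem compM_algebraMap (g : SL(2, ℤ)) (f : Hol) :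
    compM g (algebraMap Hol Mer f) = algebraMap Hol Mer (compSL g f) :=
  IsFractionRing.lift_algebraMap (algebraMap_comp_compSL_injective g) f

theorem compM_div (g : SL(2, ℤ)) (a b : Hol) :
    compM g (algebraMap Hol Mer a / algebraMap Hol Mer b)
      = algebraMap Hol Mer (compSL g a) / algebraMap Hol Mer (compSL g b) := by
  rw [map_div₀, compM_algebraMap, compM_algebraMap]

theorem exists_div_eq (m : Mer) (hm : m ≠ 0) :
    ∃ a b : Hol, a ≠ 0 ∧ b ≠ 0 ∧ m = algebraMap Hol Mer a / algebraMap Hol Mer b := by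
  obtain ⟨a, b, hb, rfl⟩ := IsFractionRing.div_surjective (A := Hol) m
  have hb0 : b ≠ 0 := nonZeroDivisors.ne_zero hb
  refine ⟨a, b, ?_, hb0, rfl⟩
  rintro rfl
  simp at hm

theorem algebraMap_ne_zero {f : Hol} (hf : f ≠ 0) : algebraMap Hol Mer f ≠ 0 := by
  intro h
  exact hf ((IsFractionRing.injective Hol Mer) (h.trans (map_zero _).symm))

theorem ordM_mk (τ : ℍ) {a b : Hol} (ha : a ≠ 0) (hb : b ≠ 0) :
    ordM τ (algebraMap Hol Mer a / algebraMap Hol Mer b) = (ordNat τ a : ℤ) - ordNat τ b := by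
  rw [ordM_div τ (algebraMap_ne_zero ha) (algebraMap_ne_zero hb), ordM_algebraMap τ ha,
    ordM_algebraMap τ hb]

theorem ordM_compM (g : SL(2, ℤ)) (m : Mer) (τ : ℍ) :
    ordM τ (compM g m) = ordM (g • τ) m := by
  by_cases hm : m = 0
  · subst hm; simp
  obtain ⟨a, b, ha, hb, rfl⟩ := exists_div_eq m hm
  rw [compM_div, ordM_mk τ (compSL_ne_zero g ha) (compSL_ne_zero g hb), ordM_mk _ ha hb,
    ordNat_compSL, ordNat_compSL]

theorem compM_one (m : Mer) : compM 1 m = m := by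
  by_cases hm : m = 0
  · subst hm; simp
  obtain ⟨a, b, ha, hb, rfl⟩ := exists_div_eq m hm
  rw [compM_div, compSL_one, compSL_one]

theorem compM_mul (g h : SL(2, ℤ)) (m : Mer) : compM (g * h) m = compM h (compM g m) := by
  by_cases hm : m = 0
  · subst hm; simp
  obtain ⟨a, b, ha, hb, rfl⟩ := exists_div_eq m hm
  rw [compM_div, compM_div, compM_div, compSL_mul, compSL_mul]

theorem compM_const (g : SL(2, ℤ)) (c : ℂ) :
    compM g (algebraMap ℂ Mer c) = algebraMap ℂ Mer c := by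
  rw [IsScalarTower.algebraMap_apply ℂ Hol Mer, compM_algebraMap, AlgHom.commutes]


/-! ### Fixed points: the multiplier and the rotation lemma -/

/-- `c z + d` for `s = !![a, b; c, d]`. -/
def den (s : SL(2, ℤ)) (z : ℂ) : ℂ := (s 1 0 : ℂ) * z + (s 1 1 : ℂ)

/-- The derivative `(c τ + d)⁻²` of the Möbius map of `s` at `τ`. -/
def mult (s : SL(2, ℤ)) (τ : ℍ) : ℂ := ((den s τ) ^ 2)⁻¹

theorem det_eq (s : SL(2, ℤ)) : (s 0 0 : ℂ) * (s 1 1 : ℂ) - (s 0 1 : ℂ) * (s 1 0 : ℂ) = 1 := by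
  have h := s.det_coe
  rw [Matrix.det_fin_two] at h
  exact_mod_cast congrArg (Int.cast : ℤ → ℂ) h

theorem den_ne_zero (s : SL(2, ℤ)) {z : ℂ} (hz : 0 < z.im) : den s z ≠ 0 := by
  intro h
  have him := congrArg Complex.im h
  simp only [den, Complex.add_im, Complex.mul_im, Complex.intCast_re, Complex.intCast_im,
    zero_mul, add_zero, Complex.zero_im] at him
  have hc : ((s 1 0 : ℤ) : ℝ) = 0 := by
    rcases mul_eq_zero.mp him with h1 | h1
    · exact h1
    · exact absurd h1 hz.ne'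
  have hc' : ((s 1 0 : ℤ) : ℂ) = 0 := by exact_mod_cast hc
  have hd : ((s 1 1 : ℤ) : ℂ) = 0 := by
    have := h
    simp only [den, hc', zero_mul, zero_add] at this
    exact this
  have hdet := det_eq s
  rw [hc', hd] at hdet
  simp at hdet

theorem moeb_eq (s : SL(2, ℤ)) {z : ℂ} (hz : 0 < z.im) :
    moeb s z = ((s 0 0 : ℂ) * z + (s 0 1 : ℂ)) / den s z := by
  rw [moeb, ofComplex_apply_of_im_pos hz, coe_specialLinearGroup_apply]
  simp [den]

theorem fixed_eq {s : SL(2, ℤ)} {τ : ℍ} (hfix : s • τ = τ) :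
    (τ : ℂ) * den s τ = (s 0 0 : ℂ) * τ + (s 0 1 : ℂ) := by
  have h1 : moeb s (τ : ℂ) = τ := by rw [moeb_coe, hfix]
  rw [moeb_eq s τ.im_pos] at h1
  have hd := den_ne_zero s τ.im_pos
  field_simp at h1
  linear_combination -h1

theorem moeb_sub_fixed {s : SL(2, ℤ)} {τ : ℍ} (hfix : s • τ = τ) {z : ℂ} (hz : 0 < z.im) :
    moeb s z - τ = (z - τ) * (den s z * den s τ)⁻¹ := by
  have hd1 := den_ne_zero s hz
  have hd2 := den_ne_zero s τ.im_pos
  have hf := fixed_eq hfix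
  have hdet := det_eq s
  rw [moeb_eq s hz]
  field_simp
  simp only [den] at hf ⊢
  linear_combination (z - τ) * hdet - ((s 1 0 : ℂ) * z + (s 1 1 : ℂ)) * hf

theorem mult_ne_zero (s : SL(2, ℤ)) (τ : ℍ) : mult s τ ≠ 0 :=
  inv_ne_zero (pow_ne_zero _ (den_ne_zero s τ.im_pos))

/-- `c τ + d` is an eigenvalue of `s` when `τ` is fixed by `s`. -/
theorem den_sq_eq {s : SL(2, ℤ)} {τ : ℍ} (hfix : s • τ = τ) :
    den s τ ^ 2 - ((s 0 0 : ℂ) + (s 1 1 : ℂ)) * den s τ + 1 = 0 := by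
  have hf := fixed_eq hfix
  have hdet := det_eq s
  simp only [den] at hf ⊢
  linear_combination (s 1 0 : ℂ) * hf - hdet


theorem continuousAt_den (s : SL(2, ℤ)) (z : ℂ) : ContinuousAt (den s) z := by
  unfold den
  fun_prop

/-- The leading coefficient of `f ∘ s` at a fixed point `τ` of `s` is `mult ^ ord` times that
of `f`. -/
theorem lcAt_compSL_of_fixed {s : SL(2, ℤ)} {τ : ℍ} (hfix : s • τ = τ) {f : Hol} (hf : f ≠ 0) :
    lcAt τ (compSL s f) = mult s τ ^ (ordNat τ f) * lcAt τ f := by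
  obtain ⟨u, hu, hu0, huf⟩ := exists_factor' hf τ
  have hΦτ : moeb s (τ : ℂ) = τ := by rw [moeb_coe, hfix]
  have hΦc : ContinuousAt (moeb s) (τ : ℂ) := (analyticAt_moeb s τ).continuousAt
  have hord : ordNat τ (compSL s f) = ordNat τ f := by rw [ordNat_compSL, hfix]
  -- the candidate cofactor
  let w : ℂ → ℂ := fun z => ((den s z * den s τ)⁻¹) ^ (ordNat τ f) * u (moeb s z)
  have hwc : ContinuousAt w (τ : ℂ) := by
    have h1 : ContinuousAt (fun z => (den s z * den s τ)⁻¹) (τ : ℂ) := by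
      refine ContinuousAt.inv₀ ((continuousAt_den s _).mul continuousAt_const) ?_
      exact mul_ne_zero (den_ne_zero s τ.im_pos) (den_ne_zero s τ.im_pos)
    have h2 : ContinuousAt (fun z => u (moeb s z)) (τ : ℂ) := by
      have : ContinuousAt u (moeb s (τ : ℂ)) := by rw [hΦτ]; exact hu.continuousAt
      exact this.comp hΦc
    exact (h1.pow _).mul h2
  have hwτ : w τ = mult s τ ^ (ordNat τ f) * lcAt τ f := by
    show ((den s τ * den s τ)⁻¹) ^ (ordNat τ f) * u (moeb s τ) = _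
    rw [hΦτ, hu0, mult, sq]
  rw [← hwτ]
  refine lcAt_eq (compSL_ne_zero s hf) τ hwc ?_
  have hev : ∀ᶠ z in 𝓝 (τ : ℂ), ((f : ℍ → ℂ) ∘ ofComplex) (moeb s z)
      = (moeb s z - τ) ^ (ordNat τ f) * u (moeb s z) := by
    have : ∀ᶠ y in 𝓝 (moeb s (τ : ℂ)), ((f : ℍ → ℂ) ∘ ofComplex) y
        = (y - τ) ^ (ordNat τ f) * u y := by rw [hΦτ]; exact huf
    exact hΦc.tendsto.eventually this
  filter_upwards [hev, isOpen_uhpSet.mem_nhds (coe_mem_uhpSet τ)] with z hz hzU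
  rw [hord, comp_ofComplex_compSL]
  show ((f : ℍ → ℂ) ∘ ofComplex) (moeb s z) = _
  rw [hz, moeb_sub_fixed hfix hzU, mul_pow]
  ring

/-- **Rotation lemma.** If `s` fixes `τ`, the multiplier of `s` at `τ` is a primitive `k`-th root
of unity and `m` is an `s`-invariant meromorphic function, then `k ∣ ord_τ m`. -/
theorem dvd_ordM_of_fixed {s : SL(2, ℤ)} {τ : ℍ} (hfix : s • τ = τ) {k : ℕ}
    (hk : IsPrimitiveRoot (mult s τ) k) {m : Mer} (hm : compM s m = m) :
    (k : ℤ) ∣ ordM τ m := by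
  by_cases hm0 : m = 0
  · subst hm0; simp
  obtain ⟨a, b, ha, hb, rfl⟩ := exists_div_eq m hm0
  rw [compM_div] at hm
  have hb' := algebraMap_ne_zero hb
  have hsb' := algebraMap_ne_zero (compSL_ne_zero s hb)
  rw [div_eq_div_iff hsb' hb', ← map_mul, ← map_mul] at hm
  have hm' : compSL s a * b = a * compSL s b := IsFractionRing.injective Hol Mer hm
  have hlc := congrArg (lcAt τ) hm'
  rw [lcAt_mul (compSL_ne_zero s ha) hb, lcAt_mul ha (compSL_ne_zero s hb),
    lcAt_compSL_of_fixed hfix ha, lcAt_compSL_of_fixed hfix hb] at hlc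
  have hla := lcAt_ne_zero ha τ
  have hlb := lcAt_ne_zero hb τ
  have hpow : mult s τ ^ (ordNat τ a) = mult s τ ^ (ordNat τ b) := by
    have : mult s τ ^ (ordNat τ a) * (lcAt τ a * lcAt τ b)
        = mult s τ ^ (ordNat τ b) * (lcAt τ a * lcAt τ b) := by
      linear_combination hlc
    exact mul_right_cancel₀ (mul_ne_zero hla hlb) this
  rw [ordM_mk τ ha hb]
  rw [← hk.zpow_eq_one_iff_dvd, zpow_sub₀ (mult_ne_zero s τ), zpow_natCast, zpow_natCast, hpow]
  exact div_self (pow_ne_zero _ (mult_ne_zero s τ))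

/-- If `s` fixes `τ` and has trace `0`, its multiplier at `τ` is `-1`. -/
theorem mult_of_trace_zero {s : SL(2, ℤ)} {τ : ℍ} (hfix : s • τ = τ)
    (htr : s 0 0 + s 1 1 = 0) : mult s τ = -1 := by
  have h := den_sq_eq hfix
  have htr' : (s 0 0 : ℂ) + (s 1 1 : ℂ) = 0 := by exact_mod_cast congrArg (Int.cast : ℤ → ℂ) htr
  rw [htr', zero_mul, sub_zero] at h
  have h2 : den s τ ^ 2 = -1 := by linear_combination h
  rw [mult, h2]
  norm_num

theorem isPrimitiveRoot_mult_of_trace_zero {s : SL(2, ℤ)} {τ : ℍ} (hfix : s • τ = τ)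
    (htr : s 0 0 + s 1 1 = 0) : IsPrimitiveRoot (mult s τ) 2 := by
  rw [mult_of_trace_zero hfix htr]
  exact IsPrimitiveRoot.neg_one 0 (by norm_num)

/-- If `s` fixes `τ` and has trace `±1`, its multiplier at `τ` is a primitive cube root of
unity. -/
theorem isPrimitiveRoot_mult_of_trace_sq_one {s : SL(2, ℤ)} {τ : ℍ} (hfix : s • τ = τ)
    (htr : (s 0 0 + s 1 1) ^ 2 = 1) : IsPrimitiveRoot (mult s τ) 3 := by
  have h := den_sq_eq hfix
  have htr' : ((s 0 0 : ℂ) + (s 1 1 : ℂ)) ^ 2 = 1 := by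
    exact_mod_cast congrArg (Int.cast : ℤ → ℂ) htr
  set t : ℂ := (s 0 0 : ℂ) + (s 1 1 : ℂ) with ht
  set l : ℂ := den s τ with hl
  have hl0 : l ≠ 0 := den_ne_zero s τ.im_pos
  -- `l^2 = t l - 1`, `t^2 = 1`, hence `(l^2)^2 + l^2 + 1 = 0`
  have hl2 : l ^ 2 = t * l - 1 := by linear_combination h
  have hcyc : (l ^ 2) ^ 2 + l ^ 2 + 1 = 0 := by
    have : (l ^ 2) ^ 2 + l ^ 2 + 1 = (t * l - 1) ^ 2 + (t * l - 1) + 1 := by rw [hl2]
    rw [this]
    have : (t * l - 1) ^ 2 + (t * l - 1) + 1 = t ^ 2 * l ^ 2 - t * l + 1 := by ring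
    rw [this, htr', hl2]
    ring
  set μ : ℂ := mult s τ with hμ
  have hμl : μ * l ^ 2 = 1 := by
    rw [hμ, mult]
    exact inv_mul_cancel₀ (pow_ne_zero _ hl0)
  have hμcyc : μ ^ 2 + μ + 1 = 0 := by
    have hl2ne : l ^ 2 ≠ 0 := pow_ne_zero _ hl0
    have : (μ ^ 2 + μ + 1) * (l ^ 2) ^ 2 = 0 := by
      have e1 : μ ^ 2 * (l ^ 2) ^ 2 = 1 := by rw [← mul_pow, hμl, one_pow]
      have e2 : μ * (l ^ 2) ^ 2 = l ^ 2 := by rw [sq (l ^ 2), ← mul_assoc, hμl, one_mul]
      calc (μ ^ 2 + μ + 1) * (l ^ 2) ^ 2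
          = μ ^ 2 * (l ^ 2) ^ 2 + μ * (l ^ 2) ^ 2 + (l ^ 2) ^ 2 := by ring
        _ = 1 + l ^ 2 + (l ^ 2) ^ 2 := by rw [e1, e2]
        _ = 0 := by linear_combination hcyc
    rcases mul_eq_zero.mp this with h1 | h1
    · exact h1
    · exact absurd h1 (pow_ne_zero _ hl2ne)
  have hμ3 : μ ^ 3 = 1 := by linear_combination (μ - 1) * hμcyc
  have hμ1 : μ ≠ 1 := by
    intro h1
    rw [h1] at hμcyc
    norm_num at hμcyc
  refine IsPrimitiveRoot.mk_of_lt μ (by norm_num) hμ3 ?_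
  intro l' hl'0 hl'3
  interval_cases l'
  · simpa using hμ1
  · intro h2
    -- μ^2 = 1 and μ^3 = 1 give μ = 1
    apply hμ1
    calc μ = μ * μ ^ 2 := by rw [h2, mul_one]
      _ = μ ^ 3 := by ring
      _ = 1 := hμ3


/-! ### Orders of polynomials in a holomorphic function -/

/-- Evaluation at a point, as an algebra homomorphism. -/
def evalAt (τ : ℍ) : Hol →ₐ[ℂ] ℂ where
  toFun f := (f : ℍ → ℂ) τ
  map_one' := rfl
  map_mul' _ _ := rfl
  map_zero' := rfl
  map_add' _ _ := rfl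
  commutes' _ := rfl

@[simp] theorem evalAt_apply (τ : ℍ) (f : Hol) : evalAt τ f = (f : ℍ → ℂ) τ := rfl

theorem aeval_apply (J : Hol) (P : Polynomial ℂ) (τ : ℍ) :
    (Polynomial.aeval J P : ℍ → ℂ) τ = P.eval ((J : ℍ → ℂ) τ) := by
  have h := Polynomial.aeval_algHom_apply (evalAt τ) J P
  rw [evalAt_apply, evalAt_apply] at h
  rw [← h, Polynomial.aeval_def, Polynomial.eval₂_eq_eval_map]
  simp

theorem ordNat_pow {f : Hol} (hf : f ≠ 0) (n : ℕ) (τ : ℍ) :
    ordNat τ (f ^ n) = n * ordNat τ f := by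
  induction n with
  | zero => simp [ordNat_one]
  | succ n ih =>
    rw [pow_succ, ordNat_mul (pow_ne_zero n hf) hf, ih]
    ring

/-- `ord_τ P(J) = ord_τ (J - J(τ)) * (multiplicity of J(τ) as a root of P)`. -/
theorem ordNat_aeval (J : Hol) (τ : ℍ)
    (hJ : J - algebraMap ℂ Hol ((J : ℍ → ℂ) τ) ≠ 0) {P : Polynomial ℂ} (hP : P ≠ 0) :
    ordNat τ (Polynomial.aeval J P)
      = ordNat τ (J - algebraMap ℂ Hol ((J : ℍ → ℂ) τ)) * P.rootMultiplicity ((J : ℍ → ℂ) τ) := by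
  set c : ℂ := (J : ℍ → ℂ) τ with hc
  obtain ⟨Q, hPQ, hQ⟩ := Polynomial.exists_eq_pow_rootMultiplicity_mul_and_not_dvd P hP c
  have hQc : Q.eval c ≠ 0 := by
    intro h
    exact hQ (Polynomial.dvd_iff_isRoot.mpr h)
  have hQJ : (Polynomial.aeval J Q : ℍ → ℂ) τ ≠ 0 := by rw [aeval_apply]; exact hQc
  have hQJ0 : Polynomial.aeval J Q ≠ 0 := by
    intro h
    rw [h] at hQJ
    exact hQJ rfl
  have hdecomp : Polynomial.aeval J P
      = (J - algebraMap ℂ Hol c) ^ (P.rootMultiplicity c) * Polynomial.aeval J Q := by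
    conv_lhs => rw [hPQ]
    simp [map_mul, map_pow, map_sub]
  rw [hdecomp, ordNat_mul (pow_ne_zero _ hJ) hQJ0, ordNat_pow hJ,
    (ordNat_eq_zero_iff hQJ0 τ).mpr hQJ, add_zero, mul_comm]

theorem aeval_ne_zero_of_nonconstant (J : Hol) (τ : ℍ)
    (hJ : ∀ c : ℂ, J - algebraMap ℂ Hol c ≠ 0) {P : Polynomial ℂ} (hP : P ≠ 0) :
    Polynomial.aeval J P ≠ 0 := by
  -- split off all roots: induct on the degree
  induction hn : P.natDegree using Nat.strong_induction_on generalizing P with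
  | _ n ih => ?_
  by_cases hroot : ∃ c, P.IsRoot c
  · obtain ⟨c, hc⟩ := hroot
    obtain ⟨Q, rfl⟩ := Polynomial.dvd_iff_isRoot.mpr hc
    have hQ : Q ≠ 0 := right_ne_zero_of_mul hP
    have hdeg : Q.natDegree < n := by
      rw [← hn, Polynomial.natDegree_mul (Polynomial.X_sub_C_ne_zero c) hQ,
        Polynomial.natDegree_X_sub_C]
      omega
    have := ih _ hdeg hQ rfl
    rw [map_mul]
    refine mul_ne_zero ?_ this
    simpa using hJ c
  · -- no roots: constant nonzero polynomial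
    have hdeg : P.degree = 0 := by
      by_contra h
      exact hroot (IsAlgClosed.exists_root P h)
    obtain ⟨a, ha⟩ : ∃ a, P = Polynomial.C a := ⟨P.coeff 0, Polynomial.eq_C_of_degree_eq_zero hdeg⟩
    have ha0 : a ≠ 0 := by
      rintro rfl
      exact hP (by simpa using ha)
    rw [ha, Polynomial.aeval_C]
    intro h
    have := congrArg (evalAt τ) h
    simp at this
    exact ha0 this

end Fermat.Agent.S24_helper82
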