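import Mathlib
import Fermat.Agent.S24_helper82.HolOrd
import Fermat.Agent.S24.ModularDefs
import Fermat.Agent.S24_helper62.FieldGen
import Fermat.Agent.S28.MeroSubst
import Fermat.Agent.S28.CuspExpansion2

/-!
# T24 / M7a: realisation of the function field of `X₀(N)` inside the field `Mer` of
meromorphic functions on the upper half plane
-/

set_option autoImplicit false

noncomputable section

namespace Fermat.Agent.S24_helper82

open UpperHalfPlane ModularCurve Fermat.Agent.S24 Fermat.Agent.S28 Fermat.Agent.S28.CuspExp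
open Fermat.Agent.S24_helper62
open scoped MatrixGroups Manifold

/-! ### The functions `j(d z)` -/

theorem isCE_jDil_aux (d : ℕ) [NeZero d] (hd : 0 < d) :
    IsCE 1 (jDil d hd) ∧ cuspExp 1 (jDil d hd) = qExpand ℂ d (jqModC ℂ) := by
  have h := isCE_subst isCE_jFun d 0 1 1 d one_pos one_pos (by ring) (1 : ℂˣ) (by simp)
    (dilate d hd) (fun τ => by simp)
  simp only [Nat.cast_one] at h
  refine ⟨h.1, ?_⟩
  have h2 := h.2
  rw [cuspExp_jFun, cuspS_one_eq_qExpand] at h2
  exact h2

theorem isCE_jDil (d : ℕ) (hd : 0 < d) : IsCE 1 (jDil d hd) :=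
  haveI : NeZero d := ⟨hd.ne'⟩
  (isCE_jDil_aux d hd).1

theorem cuspExp_jDil (d : ℕ) [NeZero d] (hd : 0 < d) :
    cuspExp 1 (jDil d hd) = qExpand ℂ d (jqModC ℂ) := (isCE_jDil_aux d hd).2

theorem mdifferentiable_jDil (d : ℕ) (hd : 0 < d) :
    MDifferentiable 𝓘(ℂ) 𝓘(ℂ) (jDil d hd) := (isCE_jDil d hd).mdifferentiable one_pos

/-- `j(d z)` as a holomorphic function -/
def jDilHol (d : ℕ) (hd : 0 < d) : Hol := ⟨jDil d hd, mdifferentiable_jDil d hd⟩

/-! ### A generic extension lemma (two-field version of `S28.exists_algHom_adjoin_field`) -/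

section Extend

open IntermediateField.algebraAdjoinAdjoin

variable {k L₁ L₂ : Type*} [Field k] [Field L₁] [Field L₂] [Algebra k L₁] [Algebra k L₂]
  {X : Type*}

/-- If two families `gen : X → L₁`, `s : X → L₂` satisfy the same polynomial relations over `k`,
there is a `k`-embedding of the subalgebra generated by `gen` into `L₂` sending `gen x` to
`s x`. -/
theorem exists_algHom_adjoin_two (gen : X → L₁) (s : X → L₂)
    (hker : ∀ P : MvPolynomial X k, MvPolynomial.aeval gen P = 0 ↔ MvPolynomial.aeval s P = 0) :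
    ∃ σ : Algebra.adjoin k (Set.range gen) →ₐ[k] L₂, Function.Injective σ ∧
      ∀ P : MvPolynomial X k, ∀ h : MvPolynomial.aeval gen P ∈ Algebra.adjoin k (Set.range gen),
        σ ⟨MvPolynomial.aeval gen P, h⟩ = MvPolynomial.aeval s P := by
  classical
  set f : MvPolynomial X k →ₐ[k] L₁ := MvPolynomial.aeval gen with hf
  set g : MvPolynomial X k →ₐ[k] L₂ := MvPolynomial.aeval s with hg
  have hrange : Algebra.adjoin k (Set.range gen) = f.range :=
    Algebra.adjoin_range_eq_range_aeval k gen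
  have hsurj : Function.Surjective f.rangeRestrict := f.rangeRestrict_surjective
  let e : (MvPolynomial X k ⧸ RingHom.ker f.rangeRestrict) ≃ₐ[k] f.range :=
    Ideal.quotientKerAlgEquivOfSurjective hsurj
  have hkerle : ∀ a ∈ RingHom.ker f.rangeRestrict, g a = 0 := by
    intro a ha
    rw [RingHom.mem_ker] at ha
    have : f a = 0 := congrArg Subtype.val ha
    exact (hker a).mp this
  let τ : f.range →ₐ[k] L₂ :=
    (Ideal.Quotient.liftₐ (RingHom.ker f.rangeRestrict) g hkerle).comp e.symm.toAlgHom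
  have hτ : ∀ P, τ (f.rangeRestrict P) = g P := by
    intro P
    have h1 : e.symm (f.rangeRestrict P) = Ideal.Quotient.mk _ P := by
      rw [AlgEquiv.symm_apply_eq]
      rfl
    show (Ideal.Quotient.liftₐ (RingHom.ker f.rangeRestrict) g hkerle)
      (e.symm (f.rangeRestrict P)) = g P
    rw [h1]
    rfl
  have hτinj : Function.Injective τ := by
    rw [injective_iff_map_eq_zero]
    intro a ha
    obtain ⟨P, rfl⟩ := hsurj a
    rw [hτ] at ha
    have : f P = 0 := (hker P).mpr ha
    exact Subtype.ext this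
  refine ⟨τ.comp (Subalgebra.equivOfEq _ _ hrange).toAlgHom, ?_, ?_⟩
  · exact hτinj.comp (Subalgebra.equivOfEq _ _ hrange).injective
  · intro P h
    exact hτ P

/-- Extension to the generated field. -/
theorem exists_algHom_adjoin_field_two (gen : X → L₁) (s : X → L₂)
    (hker : ∀ P : MvPolynomial X k, MvPolynomial.aeval gen P = 0 ↔ MvPolynomial.aeval s P = 0) :
    ∃ σ : IntermediateField.adjoin k (Set.range gen) →ₐ[k] L₂,
      ∀ x : X, σ ⟨gen x, IntermediateField.subset_adjoin k _ ⟨x, rfl⟩⟩ = s x := by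
  obtain ⟨σ₀, hinj, hσ₀⟩ := exists_algHom_adjoin_two gen s hker
  refine ⟨IsFractionRing.liftAlgHom (K := IntermediateField.adjoin k (Set.range gen)) hinj, ?_⟩
  intro x
  have hmem : gen x ∈ Algebra.adjoin k (Set.range gen) := Algebra.subset_adjoin ⟨x, rfl⟩
  have : (⟨gen x, IntermediateField.subset_adjoin k _ ⟨x, rfl⟩⟩ :
        IntermediateField.adjoin k (Set.range gen)) =
      algebraMap (Algebra.adjoin k (Set.range gen)) (IntermediateField.adjoin k (Set.range gen))
        ⟨gen x, hmem⟩ := rfl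
  rw [this, IsFractionRing.liftAlgHom_apply, IsFractionRing.lift_algebraMap]
  have h2 := hσ₀ (MvPolynomial.X x) (by rw [MvPolynomial.aeval_X]; exact hmem)
  simp only [MvPolynomial.aeval_X] at h2
  exact h2

end Extend

/-! ### The `ℚ̄`-algebra structure on `Mer` -/

/-- the `ℚ̄`-algebra structure on `Mer` through the fixed embedding `iotaC : ℚ̄ → ℂ` -/
instance instAlgebraKbarMer : Algebra Kbar Mer := ((algebraMap ℂ Mer).comp iotaC).toAlgebra

theorem algebraMap_Kbar_Mer (c : Kbar) : algebraMap Kbar Mer c = algebraMap ℂ Mer (iotaC c) := rfl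

/-! ### Kernel comparison -/

section Kernel

variable (N : ℕ) [NeZero N]

theorem DivIdx.pos (d : DivIdx N) : 0 < d.1 := Nat.pos_of_ne_zero (NeZero.ne d.1)

/-- the functions `j(d z)`, `d ∣ N` -/
def genFn (d : DivIdx N) : ℍ → ℂ := jDil d.1 (DivIdx.pos N d)

/-- the holomorphic functions `j(d z)`, `d ∣ N` -/
def genHol (d : DivIdx N) : Hol := jDilHol d.1 (DivIdx.pos N d)

/-- the meromorphic functions `j(d z)`, `d ∣ N` -/
def genM (d : DivIdx N) : Mer := algebraMap Hol Mer (genHol N d)

theorem coe_genHol (d : DivIdx N) : ((genHol N d : Hol) : ℍ → ℂ) = genFn N d := rfl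

theorem coeffMap_jFam (d : DivIdx N) :
    coeffMap iotaC (jFam Kbar N d) = cuspExp 1 (genFn N d) := by
  rw [genFn, cuspExp_jDil, jFam, coeffMap_qExpand, coeffMap_jqModC]

theorem isCE_genFn (d : DivIdx N) : IsCE 1 (genFn N d) := isCE_jDil _ _

/-- the function `τ ↦ P(j(d τ) : d ∣ N)` -/
def polyFn (P : MvPolynomial (DivIdx N) ℂ) : ℍ → ℂ :=
  fun τ => MvPolynomial.eval (fun d => genFn N d τ) P

theorem isCE_polyFn (P : MvPolynomial (DivIdx N) ℂ) : IsCE 1 (polyFn N P) :=
  (meroExp_isCE one_pos).isMC_eval (genFn N) (isCE_genFn N) P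

theorem cuspExp_polyFn (P : MvPolynomial (DivIdx N) Kbar) :
    cuspExp 1 (polyFn N (MvPolynomial.map iotaC P)) =
      coeffMap iotaC (MvPolynomial.aeval (jFam Kbar N) P) := by
  show cuspExp 1 (fun τ => MvPolynomial.eval (fun d => genFn N d τ) (MvPolynomial.map iotaC P)) = _
  rw [(meroExp_isCE one_pos).exp_eval (genFn N) (isCE_genFn N), EvalBridge.coeffMap_aeval]
  have h : (fun d => cuspExp 1 (genFn N d)) = fun d => coeffMap iotaC (jFam Kbar N d) :=
    funext fun d => (coeffMap_jFam N d).symm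
  rw [h]

theorem aeval_jFam_eq_zero_iff_polyFn (P : MvPolynomial (DivIdx N) Kbar) :
    MvPolynomial.aeval (jFam Kbar N) P = 0 ↔ polyFn N (MvPolynomial.map iotaC P) = 0 := by
  rw [← EvalBridge.coeffMap_eq_zero_iff iotaC iotaC_injective, ← cuspExp_polyFn]
  constructor
  · intro h
    exact (isCE_polyFn N _).eq_zero_of_cuspExp_eq_zero h
  · intro h
    rw [h]
    have : cuspExp 1 (0 : ℍ → ℂ) = HahnSeries.C (0 : ℂ) := cuspExp_const one_pos 0
    rw [this, map_zero]

theorem coe_aeval_genHol (P : MvPolynomial (DivIdx N) ℂ) :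
    ((MvPolynomial.aeval (genHol N) P : Hol) : ℍ → ℂ) = polyFn N P := by
  have h1 := MvPolynomial.comp_aeval_apply (f := genHol N) Hol.val P
  have h2 : (Hol.val (MvPolynomial.aeval (genHol N) P) : ℍ → ℂ) =
      MvPolynomial.aeval (genFn N) P := by
    rw [h1]
    rfl
  funext τ
  have h3 := congrFun h2 τ
  rw [EvalBridge.MeroExp.aeval_pi_apply] at h3
  exact h3

theorem aeval_genM (P : MvPolynomial (DivIdx N) Kbar) :
    MvPolynomial.aeval (genM N) P =
      algebraMap Hol Mer (MvPolynomial.aeval (genHol N) (MvPolynomial.map iotaC P)) := by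
  have h1 : MvPolynomial.aeval (genM N) P =
      MvPolynomial.aeval (R := ℂ) (genM N) (MvPolynomial.map iotaC P) := by
    rw [MvPolynomial.aeval_def, MvPolynomial.aeval_def, MvPolynomial.eval₂_map]
    rfl
  rw [h1]
  have h2 := MvPolynomial.comp_aeval_apply (f := genHol N) (IsScalarTower.toAlgHom ℂ Hol Mer)
    (MvPolynomial.map iotaC P)
  exact h2.symm

theorem aeval_genM_eq_zero_iff_polyFn (P : MvPolynomial (DivIdx N) Kbar) :
    MvPolynomial.aeval (genM N) P = 0 ↔ polyFn N (MvPolynomial.map iotaC P) = 0 := by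
  rw [aeval_genM, ← coe_aeval_genHol, coe_eq_zero_iff]
  exact (map_eq_zero_iff _ (IsFractionRing.injective Hol Mer))

/-- **Kernel comparison**: the `q`-expansions `j(q^d)` and the functions `j(d z)` satisfy the
same polynomial relations over `ℚ̄`. -/
theorem aeval_jFam_eq_zero_iff (P : MvPolynomial (DivIdx N) Kbar) :
    MvPolynomial.aeval (jFam Kbar N) P = 0 ↔ MvPolynomial.aeval (genM N) P = 0 := by
  rw [aeval_jFam_eq_zero_iff_polyFn, aeval_genM_eq_zero_iff_polyFn]

end Kernel

/-! ### The realisation `FN N → Mer` -/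

section Realize

variable (N : ℕ) [NeZero N]

theorem FN_eq_adjoin :
    modularFunctionFieldBar N = IntermediateField.adjoin Kbar (Set.range (jFam Kbar N)) := by
  rw [modularFunctionFieldBar_eq, modularFunctionFieldFullC_eq_adjoin_range]

/-- the realisation on `ℚ̄(j(q^d) : d ∣ N)` -/
def realAdjoin : IntermediateField.adjoin Kbar (Set.range (jFam Kbar N)) →ₐ[Kbar] Mer :=
  (exists_algHom_adjoin_field_two (jFam Kbar N) (genM N) (aeval_jFam_eq_zero_iff N)).choose

theorem realAdjoin_gen (d : DivIdx N) :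
    realAdjoin N ⟨jFam Kbar N d, IntermediateField.subset_adjoin Kbar _ ⟨d, rfl⟩⟩ = genM N d :=
  (exists_algHom_adjoin_field_two (jFam Kbar N) (genM N) (aeval_jFam_eq_zero_iff N)).choose_spec d

/-- **The realisation** of the function field of `X₀(N)` over `ℚ̄` as a field of meromorphic
functions on the upper half plane: `j(q^d) ↦ j(d z)`. -/
def realize : FN N →ₐ[Kbar] Mer :=
  (realAdjoin N).comp (IntermediateField.equivOfEq (FN_eq_adjoin N)).toAlgHom

theorem jdSeries_eq_jFam (d : DivIdx N) : jdSeries d.1 = jFam Kbar N d := by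
  rw [jdSeries, coeffEmb_qExpand, coeffEmb_jq, jFam]

theorem realize_jdF (d : ℕ) [NeZero d] (hd : d ∣ N) :
    realize N (jdF N d hd) = algebraMap Hol Mer (jDilHol d (Nat.pos_of_ne_zero (NeZero.ne d))) := by
  have h := realAdjoin_gen N ⟨d, hd⟩
  have h2 : (IntermediateField.equivOfEq (FN_eq_adjoin N)) (jdF N d hd) =
      ⟨jFam Kbar N ⟨d, hd⟩, IntermediateField.subset_adjoin Kbar _ ⟨⟨d, hd⟩, rfl⟩⟩ := by
    apply Subtype.ext
    exact jdSeries_eq_jFam N ⟨d, hd⟩
  show realAdjoin N ((IntermediateField.equivOfEq (FN_eq_adjoin N)) (jdF N d hd)) = _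
  rw [h2, h]
  rfl

theorem realize_injective : Function.Injective (realize N) := (realize N).toRingHom.injective

end Realize

/-! ### Homomorphisms out of `FN N` are determined on the generators -/

section HomExt

variable (N : ℕ) [NeZero N]

theorem algHom_ext_FN {L : Type*} [Field L] [Algebra Kbar L] ⦃φ ψ : FN N →ₐ[Kbar] L⦄
    (h : ∀ (d : ℕ) [NeZero d] (hd : d ∣ N), φ (jdF N d hd) = ψ (jdF N d hd)) : φ = ψ := by
  apply IntermediateField.algHom_ext_of_eq_adjoin Kbar (FN_eq_adjoin N)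
  rintro x ⟨d, rfl⟩
  have h1 := h d.1 d.2
  have h2 : (⟨jFam Kbar N d, (FN_eq_adjoin N).ge
      (IntermediateField.subset_adjoin Kbar _ ⟨d, rfl⟩)⟩ : FN N) = jdF N d.1 d.2 :=
    Subtype.ext (jdSeries_eq_jFam N d).symm
  rw [h2]
  exact h1

end HomExt

/-! ### The translates `Sig N g = (f ↦ f ∘ g⁻¹) ∘ realize N` -/

section Translates

variable (N : ℕ) [NeZero N]

/-- `compM g` as a `ℚ̄`-algebra endomorphism of `Mer` -/
def compMₐ (g : SL(2, ℤ)) : Mer →ₐ[Kbar] Mer where
  __ := compM g
  commutes' c := by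
    show compM g (algebraMap Kbar Mer c) = algebraMap Kbar Mer c
    rw [algebraMap_Kbar_Mer, compM_const]

@[simp] theorem compMₐ_apply (g : SL(2, ℤ)) (m : Mer) : compMₐ g m = compM g m := rfl

omit [NeZero N] in
/-- `j(d z)` is `Γ₀(N)`-invariant for `d ∣ N` -/
theorem compSL_jDilHol {d : ℕ} (hd : 0 < d) (hdN : d ∣ N) {γ : SL(2, ℤ)}
    (hγ : γ ∈ CongruenceSubgroup.Gamma0 N) : compSL γ (jDilHol d hd) = jDilHol d hd := by
  apply Subtype.ext
  funext z
  exact jDil_smul_of_mem_Gamma0 hd hdN hγ z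

/-- **`Γ₀(N)`-invariance** of the realisation. -/
theorem compM_realize_of_mem_Gamma0 {γ : SL(2, ℤ)} (hγ : γ ∈ CongruenceSubgroup.Gamma0 N)
    (f : FN N) : compM γ (realize N f) = realize N f := by
  have h : (compMₐ γ).comp (realize N) = realize N := by
    apply algHom_ext_FN
    intro d _ hd
    show compM γ (realize N (jdF N d hd)) = realize N (jdF N d hd)
    rw [realize_jdF, compM_algebraMap, compSL_jDilHol N _ hd hγ]
  exact DFunLike.congr_fun h f

/-- the translate of the realisation by `g ∈ SL(2, ℤ)`: `f ↦ (realize f) ∘ g⁻¹` -/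
def Sig (g : SL(2, ℤ)) : FN N →ₐ[Kbar] Mer := (compMₐ g⁻¹).comp (realize N)

theorem Sig_apply (g : SL(2, ℤ)) (f : FN N) : Sig N g f = compM g⁻¹ (realize N f) := rfl

theorem Sig_one (f : FN N) : Sig N 1 f = realize N f := by
  rw [Sig_apply, inv_one, compM_one]

/-- the translates only depend on the coset `g Γ₀(N)` -/
theorem Sig_mul_of_mem_Gamma0 (g : SL(2, ℤ)) {γ : SL(2, ℤ)}
    (hγ : γ ∈ CongruenceSubgroup.Gamma0 N) (f : FN N) : Sig N (g * γ) f = Sig N g f := by
  rw [Sig_apply, Sig_apply, mul_inv_rev, compM_mul,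
    compM_realize_of_mem_Gamma0 N (inv_mem hγ)]

/-- left multiplication of the coset corresponds to precomposition -/
theorem Sig_mul_left (ε g : SL(2, ℤ)) (f : FN N) : Sig N (ε * g) f = compM ε⁻¹ (Sig N g f) := by
  rw [Sig_apply, Sig_apply, mul_inv_rev, compM_mul]

theorem Sig_eq_of_coset_eq {g g' : SL(2, ℤ)}
    (h : (g : I0 N) = (g' : I0 N)) (f : FN N) : Sig N g f = Sig N g' f := by
  have h1 : g⁻¹ * g' ∈ CongruenceSubgroup.Gamma0 N := QuotientGroup.eq.mp h
  have h2 : g' = g * (g⁻¹ * g') := by group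
  rw [h2, Sig_mul_of_mem_Gamma0 N g h1]

/-- `j` is realised by the `SL(2,ℤ)`-invariant function `jFun` -/
theorem realize_jF : realize N (jF N) = algebraMap Hol Mer (jDilHol 1 one_pos) := realize_jdF N 1 _

theorem compSL_jDilHol_one (g : SL(2, ℤ)) : compSL g (jDilHol 1 one_pos) = jDilHol 1 one_pos := by
  apply Subtype.ext
  funext z
  show jDil 1 one_pos (g • z) = jDil 1 one_pos z
  rw [jDil_one, jDil_one, jFun_smul]

/-- all the translates agree at `j` -/
theorem Sig_jF (g : SL(2, ℤ)) : Sig N g (jF N) = algebraMap Hol Mer (jDilHol 1 one_pos) := by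
  rw [Sig_apply, realize_jF, compM_algebraMap, compSL_jDilHol_one]

end Translates

end Fermat.Agent.S24_helper82
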