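import Mathlib
import Fermat.Agent.S24_helper82.Realize
import Fermat.Agent.S24.LOC
import Fermat.Agent.S24.LocalOrder
import Fermat.Agent.S24_helper66.CosetSepJ

/-!
# T24 / M7: the interior valuations `ord_{τ₀} ∘ Sig g` on the function field of `X₀(N)`

For `τ₀ : ℍ` and `g ∈ SL(2,ℤ)` the integer valuation `V N τ₀ g f = ord_{τ₀} (f~ ∘ g⁻¹)` on
`FN N`; it only depends on the coset `g Γ₀(N)`.  We provide the inputs `hVx`, `hsymm`, `hg`, `hdiv`
of `LOC.orbit_lemma` and the injectivity of `q ↦ Sig N q.out`.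
-/

set_option autoImplicit false

noncomputable section

namespace Fermat.Agent.S24_helper82

open UpperHalfPlane ModularCurve Fermat.Agent.S24 Fermat.Agent.S28 Fermat.Agent.S28.CuspExp
open Fermat.Agent.S24_helper62 Fermat.Agent.S20_helper25
open scoped MatrixGroups Manifold

/-! ### The valuation `ord_{τ₀}` on `Mer` -/

/-- the valuation `ord_{τ₀}` on `Mer` as an `IntVal` over `ℚ̄` -/
def merIntVal (τ₀ : ℍ) : IntVal Kbar Mer where
  toFun := ordM τ₀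
  map_mul' hf hg := ordM_mul τ₀ hf hg
  map_add' hf hg hfg := min_ordM_le_add τ₀ hf hg hfg
  map_algebraMap' c hc := by
    rw [algebraMap_Kbar_Mer]
    exact ordM_const τ₀ ((map_ne_zero iotaC).mpr hc)

@[simp] theorem merIntVal_apply (τ₀ : ℍ) (m : Mer) : merIntVal τ₀ m = ordM τ₀ m := rfl

section Val

variable (N : ℕ) [NeZero N]

/-- the valuation `f ↦ ord_{τ₀} (f~ ∘ g⁻¹)` on `FN N` -/
def V (τ₀ : ℍ) (g : SL(2, ℤ)) : IntVal Kbar (FN N) := IntVal.comap (Sig N g) (merIntVal τ₀)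

theorem V_apply (τ₀ : ℍ) (g : SL(2, ℤ)) (f : FN N) : V N τ₀ g f = ordM τ₀ (Sig N g f) := rfl

theorem V_apply' (τ₀ : ℍ) (g : SL(2, ℤ)) (f : FN N) :
    V N τ₀ g f = ordM (g⁻¹ • τ₀) (realize N f) := by
  rw [V_apply, Sig_apply, ordM_compM]

theorem V_eq_of_coset_eq (τ₀ : ℍ) {g g' : SL(2, ℤ)} (h : (g : I0 N) = (g' : I0 N)) :
    V N τ₀ g = V N τ₀ g' := by
  ext f
  rw [V_apply, V_apply, Sig_eq_of_coset_eq N h]

/-- the valuation attached to a coset -/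
def Vq (τ₀ : ℍ) (q : I0 N) : IntVal Kbar (FN N) := V N τ₀ q.out

theorem Vq_mk (τ₀ : ℍ) (g : SL(2, ℤ)) : Vq N τ₀ (g : I0 N) = V N τ₀ g :=
  V_eq_of_coset_eq N τ₀ (QuotientGroup.out_eq' (g : I0 N))

theorem Vq_mk_apply (τ₀ : ℍ) (g : SL(2, ℤ)) (f : FN N) :
    Vq N τ₀ (g : I0 N) f = ordM (g⁻¹ • τ₀) (realize N f) := by
  rw [Vq_mk, V_apply']

/-! ### `hsymm` -/

/-- **hsymm**: left multiplication by an element of the stabiliser of `τ₀` does not change the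
valuation. -/
theorem V_mul_left_of_fixed {τ₀ : ℍ} {s : SL(2, ℤ)} (hs : s • τ₀ = τ₀) (g : SL(2, ℤ)) :
    V N τ₀ (s * g) = V N τ₀ g := by
  ext f
  have hs' : s⁻¹ • τ₀ = τ₀ := by
    rw [inv_smul_eq_iff, hs]
  rw [V_apply, V_apply, Sig_mul_left, ordM_compM, hs']

theorem Vq_smul_of_fixed {τ₀ : ℍ} {s : SL(2, ℤ)} (hs : s • τ₀ = τ₀) (q : I0 N) (f : FN N) :
    Vq N τ₀ (s • q) f = Vq N τ₀ q f := by
  induction q using QuotientGroup.induction_on with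
  | H g =>
    have : s • (g : I0 N) = ((s * g : SL(2, ℤ)) : I0 N) := rfl
    rw [this, Vq_mk, Vq_mk, V_mul_left_of_fixed N hs]

/-! ### `hg` -/

omit [NeZero N] in
theorem neg_one_mem_Gamma0 : (-1 : SL(2, ℤ)) ∈ CongruenceSubgroup.Gamma0 N := by
  rw [CongruenceSubgroup.Gamma0_mem]
  simp

omit [NeZero N] in
theorem neg_one_smul_coset (q : I0 N) : (-1 : SL(2, ℤ)) • q = q := by
  induction q using QuotientGroup.induction_on with
  | H g =>
    have h1 : (-1 : SL(2, ℤ)) • (g : I0 N) = (((-1 : SL(2, ℤ)) * g : SL(2, ℤ)) : I0 N) := rfl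
    rw [h1, QuotientGroup.eq]
    have h2 : ((-1 : SL(2, ℤ)) * g)⁻¹ * g = -1 := by
      rw [mul_inv_rev]
      have : (-1 : SL(2, ℤ))⁻¹ = -1 := by
        rw [inv_eq_iff_eq_inv, eq_inv_iff_mul_eq_one]
        simp
      rw [this, mul_assoc, neg_one_mul, mul_neg, inv_mul_cancel]
    rw [h2]
    exact neg_one_mem_Gamma0 N

omit [NeZero N] in
/-- **hg**: if `s ^ e = ±1` then `s ^ e` acts trivially on the cosets. -/
theorem pow_smul_coset_of_pow_eq {s : SL(2, ℤ)} {e : ℕ} (h : s ^ e = 1 ∨ s ^ e = -1) (q : I0 N) :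
    s ^ e • q = q := by
  rcases h with h | h
  · rw [h, one_smul]
  · rw [h, neg_one_smul_coset]

/-! ### `hdiv` -/

/-- an element fixing the coset of `g` fixes the translate `Sig N g f` -/
theorem compM_Sig_of_smul_eq {t g : SL(2, ℤ)} (h : t • (g : I0 N) = (g : I0 N)) (f : FN N) :
    compM t (Sig N g f) = Sig N g f := by
  have h1 : t • (g : I0 N) = ((t * g : SL(2, ℤ)) : I0 N) := rfl
  rw [h1, QuotientGroup.eq] at h
  -- `(t g)⁻¹ g = g⁻¹ t⁻¹ g ∈ Γ₀(N)`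
  have h2 : g⁻¹ * t * g ∈ CongruenceSubgroup.Gamma0 N := by
    have := inv_mem h
    rwa [mul_inv_rev, inv_inv, ← mul_assoc] at this
  have h3 : g⁻¹ * t = (g⁻¹ * t * g) * g⁻¹ := by group
  rw [Sig_apply, ← compM_mul, h3, compM_mul, compM_realize_of_mem_Gamma0 N h2]

/-- **hdiv, core**: if `t` fixes `τ₀` with multiplier a primitive `k`-th root of unity and `t` fixes
the coset `q`, then `k` divides all values of `Vq N τ₀ q`. -/
theorem dvd_Vq_of_fixed {τ₀ : ℍ} {t : SL(2, ℤ)} (ht : t • τ₀ = τ₀) {k : ℕ}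
    (hk : IsPrimitiveRoot (mult t τ₀) k) {q : I0 N} (hq : t • q = q) (f : FN N) :
    (k : ℤ) ∣ Vq N τ₀ q f := by
  induction q using QuotientGroup.induction_on with
  | H g =>
    rw [Vq_mk, V_apply]
    exact dvd_ordM_of_fixed ht hk (compM_Sig_of_smul_eq N hq f)

end Val

/-! ### `hVx`: the value at `j - c` -/

section Value

variable (N : ℕ) [NeZero N]

/-- `j` as an element of `Hol` -/
def jHol : Hol := jDilHol 1 one_pos

theorem coe_jHol : ((jHol : Hol) : ℍ → ℂ) = jFun := by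
  funext z
  exact jDil_one z

theorem jHol_apply (z : ℍ) : (jHol : ℍ → ℂ) z = jFun z := congrFun coe_jHol z

theorem Sig_jF_sub (g : SL(2, ℤ)) (c : Kbar) :
    Sig N g (jF N - algebraMap Kbar (FN N) c) =
      algebraMap Hol Mer (jHol - algebraMap ℂ Hol (iotaC c)) := by
  rw [map_sub, Sig_jF, AlgHom.commutes, algebraMap_Kbar_Mer, map_sub,
    ← IsScalarTower.algebraMap_apply ℂ Hol Mer]
  rfl

theorem ordAt_jHol_sub (τ₀ : ℍ) :
    ordAt τ₀ ((jHol - algebraMap ℂ Hol (jFun τ₀) : Hol) : ℍ → ℂ) =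
      ((Nat.card (Stab τ₀) / 2 : ℕ) : ℕ∞) := by
  have h := Fermat.Agent.S24.LocalOrder.analyticOrderAt_sub_eq_card_Stab (J := jFun)
    (fun z => rfl) τ₀
  rw [← h, ordAt]
  congr 1
  funext w
  show (jHol : ℍ → ℂ) (ofComplex w) - jFun τ₀ = _
  rw [jHol_apply]

theorem card_Stab_div_two_pos (τ₀ : ℍ) : 0 < Nat.card (Stab τ₀) / 2 := by
  rcases Stab_trichotomy τ₀ with ⟨-, -, -, hc⟩ | ⟨g, -, -, hc⟩ | ⟨g, -, -, hc⟩ <;> rw [hc] <;>
    norm_num

theorem jHol_sub_ne_zero (c : ℂ) : jHol - algebraMap ℂ Hol c ≠ 0 := by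
  intro h
  -- `j` is not constant: it takes the value `c + 1` somewhere
  obtain ⟨z, hz⟩ := Fermat.Agent.S24.LocalOrder.exists_jInv_eq (c + 1)
  have h1 : ((jHol - algebraMap ℂ Hol c : Hol) : ℍ → ℂ) z = ((0 : Hol) : ℍ → ℂ) z := by
    rw [h]
  have h2 : ((jHol - algebraMap ℂ Hol c : Hol) : ℍ → ℂ) z = jFun z - c := by
    show (jHol : ℍ → ℂ) z - c = _
    rw [jHol_apply]
  rw [h2] at h1
  have h3 : jFun z = c + 1 := hz
  rw [h3] at h1
  have h4 : ((0 : Hol) : ℍ → ℂ) z = 0 := rfl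
  rw [h4] at h1
  simp at h1

/-- **hVx**: the common value of all the `V N τ₀ g` at `j - c`, `c = j(τ₀)`. -/
theorem V_jF_sub {τ₀ : ℍ} {c : Kbar} (hc : jFun τ₀ = iotaC c) (g : SL(2, ℤ)) :
    V N τ₀ g (jF N - algebraMap Kbar (FN N) c) = ((Nat.card (Stab τ₀) / 2 : ℕ) : ℤ) := by
  rw [V_apply, Sig_jF_sub, ordM_algebraMap τ₀ (jHol_sub_ne_zero _), ordNat, ← hc,
    ordAt_jHol_sub]
  rfl

theorem Vq_jF_sub {τ₀ : ℍ} {c : Kbar} (hc : jFun τ₀ = iotaC c) (q : I0 N) :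
    Vq N τ₀ q (jF N - algebraMap Kbar (FN N) c) = ((Nat.card (Stab τ₀) / 2 : ℕ) : ℤ) :=
  V_jF_sub N hc _

theorem jF_sub_ne_zero (c : Kbar) : jF N - algebraMap Kbar (FN N) c ≠ 0 := by
  intro h
  have h1 := congrArg (Sig N 1) h
  rw [Sig_jF_sub, map_zero] at h1
  exact algebraMap_ne_zero (jHol_sub_ne_zero _) h1

/-- the `OrbitData` at an interior point `τ₀` with `j(τ₀) = c` -/
def interiorData {τ₀ : ℍ} {c : Kbar} (hc : jFun τ₀ = iotaC c) :
    OrbitData Kbar (jF N - algebraMap Kbar (FN N) c) (I0 N) where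
  V := Vq N τ₀
  e₀ := Nat.card (Stab τ₀) / 2
  he₀ := card_Stab_div_two_pos τ₀
  hx0 := jF_sub_ne_zero N c
  hVx q := Vq_jF_sub N hc q

@[simp] theorem interiorData_V {τ₀ : ℍ} {c : Kbar} (hc : jFun τ₀ = iotaC c) (q : I0 N) :
    (interiorData N hc).V q = Vq N τ₀ q := rfl

@[simp] theorem interiorData_e₀ {τ₀ : ℍ} {c : Kbar} (hc : jFun τ₀ = iotaC c) :
    (interiorData N hc).e₀ = Nat.card (Stab τ₀) / 2 := rfl

end Value

/-! ### Injectivity on cosets -/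

section Inj

variable (N : ℕ) [NeZero N]

theorem Sig_jdF (g : SL(2, ℤ)) (d : ℕ) [NeZero d] (hd : d ∣ N) :
    Sig N g (jdF N d hd) =
      algebraMap Hol Mer (compSL g⁻¹ (jDilHol d (Nat.pos_of_ne_zero (NeZero.ne d)))) := by
  rw [Sig_apply, realize_jdF, compM_algebraMap]

/-- **Distinctness** of the translates: `Sig N g = Sig N g'` only if `g Γ₀(N) = g' Γ₀(N)`. -/
theorem coset_eq_of_Sig_eq {g g' : SL(2, ℤ)}
    (h : Sig N g (jdF N N dvd_rfl) = Sig N g' (jdF N N dvd_rfl)) : (g : I0 N) = (g' : I0 N) := by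
  rw [Sig_jdF, Sig_jdF] at h
  have h1 := IsFractionRing.injective Hol Mer h
  refine Fermat.Agent.S24_helper66.CosetSep.coset_eq_of_jDil_eq
    (Nat.pos_of_ne_zero (NeZero.ne N)) g g' (fun τ => ?_)
  have h2 := congrArg (fun f : Hol => (f : ℍ → ℂ) τ) h1
  exact h2

/-- the family of embeddings indexed by the cosets -/
def SigQ (q : I0 N) : FN N →ₐ[Kbar] Mer := Sig N q.out

theorem SigQ_mk (g : SL(2, ℤ)) : SigQ N (g : I0 N) = Sig N g :=
  AlgHom.ext fun f => Sig_eq_of_coset_eq N (QuotientGroup.out_eq' (g : I0 N)) f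

theorem SigQ_injective : Function.Injective (SigQ N) := by
  intro q q' h
  have h1 := coset_eq_of_Sig_eq N (g := q.out) (g' := q'.out) (DFunLike.congr_fun h _)
  rwa [QuotientGroup.out_eq', QuotientGroup.out_eq'] at h1

theorem SigQ_jF (q : I0 N) : SigQ N q (jF N) = algebraMap Hol Mer jHol := Sig_jF N _

theorem Vq_apply (τ₀ : ℍ) (q : I0 N) (f : FN N) : Vq N τ₀ q f = ordM τ₀ (SigQ N q f) := rfl

end Inj

/-! ### The specialised forms of `hdiv` -/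

section Div

variable (N : ℕ) [NeZero N]

/-- **hdiv** in the shape of `LOC.orbit_lemma`, for `e₀ = 1`. -/
theorem hdiv_one (τ₀ : ℍ) (s : SL(2, ℤ)) (q : I0 N) (h : ℕ) (hh : h ∣ 1) (_hq : s ^ h • q = q)
    (f : FN N) (_hf : f ≠ 0) : (((1 : ℕ) / h : ℕ) : ℤ) ∣ Vq N τ₀ q f := by
  rw [Nat.dvd_one.mp hh]
  simp

/-- **hdiv** in the shape of `LOC.orbit_lemma`, for `e₀ = 2` (`s` of trace `0` fixing `τ₀`). -/
theorem hdiv_two {τ₀ : ℍ} {s : SL(2, ℤ)} (hs : s • τ₀ = τ₀) (htr : s 0 0 + s 1 1 = 0)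
    (q : I0 N) (h : ℕ) (hh : h ∣ 2) (hq : s ^ h • q = q) (f : FN N) (_hf : f ≠ 0) :
    (((2 : ℕ) / h : ℕ) : ℤ) ∣ Vq N τ₀ q f := by
  rcases (Nat.dvd_prime Nat.prime_two).mp hh with rfl | rfl
  · rw [pow_one] at hq
    exact dvd_Vq_of_fixed N hs (isPrimitiveRoot_mult_of_trace_zero hs htr) hq f
  · simp

/-- **hdiv** in the shape of `LOC.orbit_lemma`, for `e₀ = 3` (`s` of trace `±1` fixing `τ₀`). -/
theorem hdiv_three {τ₀ : ℍ} {s : SL(2, ℤ)} (hs : s • τ₀ = τ₀) (htr : (s 0 0 + s 1 1) ^ 2 = 1)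
    (q : I0 N) (h : ℕ) (hh : h ∣ 3) (hq : s ^ h • q = q) (f : FN N) (_hf : f ≠ 0) :
    (((3 : ℕ) / h : ℕ) : ℤ) ∣ Vq N τ₀ q f := by
  rcases (Nat.dvd_prime Nat.prime_three).mp hh with rfl | rfl
  · rw [pow_one] at hq
    exact dvd_Vq_of_fixed N hs (isPrimitiveRoot_mult_of_trace_sq_one hs htr) hq f
  · simp

end Div

end Fermat.Agent.S24_helper82
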